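import Fermat.Agent.S55.KL.H289.PImage

/-!
# S55, layer KB, leaf KB-KUM3 (helper289), part 2: functoriality

* general lemmas on `groupCohomology.map` (`map_tri`, `map_sq`, `map_nsmul_id`, `nsmul_eq_zero`);
* functoriality of `pImg`, `pCok` in `(f, φ)`.
-/

set_option autoImplicit false
set_option linter.style.haveILetI false

open CategoryTheory groupCohomology

namespace Fermat.Agent.S55.KL.H289

open Fermat.Agent.S55.KL

variable {k : Type} [CommRing k]

section General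

/-- Composition of `groupCohomology.map`s, in "triangle" form. -/
lemma map_tri {G H K : Type} [Group G] [Group H] [Group K]
    {A : Rep.{0} k K} {B : Rep.{0} k H} {C : Rep.{0} k G} (f : H →* K) (g : G →* H)
    (e : G →* K) (φ : Rep.res f A ⟶ B) (ψ : Rep.res g B ⟶ C) (χ : Rep.res e A ⟶ C)
    (hfg : f.comp g = e) (h : ∀ a : A.V, ψ.hom (φ.hom a) = χ.hom a) (n : ℕ) :
    groupCohomology.map f φ n ≫ groupCohomology.map g ψ n = groupCohomology.map e χ n := by
  rw [← groupCohomology.map_comp]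
  exact groupCohomology.map_congr hfg (LinearMap.ext h) n

/-- Composition of `groupCohomology.map`s, in "square" form. -/
lemma map_sq {G H₁ H₂ K : Type} [Group G] [Group H₁] [Group H₂] [Group K]
    {A : Rep.{0} k K} {B₁ : Rep.{0} k H₁} {B₂ : Rep.{0} k H₂} {C : Rep.{0} k G}
    (f₁ : H₁ →* K) (g₁ : G →* H₁) (f₂ : H₂ →* K) (g₂ : G →* H₂)
    (φ₁ : Rep.res f₁ A ⟶ B₁) (ψ₁ : Rep.res g₁ B₁ ⟶ C)
    (φ₂ : Rep.res f₂ A ⟶ B₂) (ψ₂ : Rep.res g₂ B₂ ⟶ C)
    (hfg : f₁.comp g₁ = f₂.comp g₂)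
    (h : ∀ a : A.V, ψ₁.hom (φ₁.hom a) = ψ₂.hom (φ₂.hom a)) (n : ℕ) :
    groupCohomology.map f₁ φ₁ n ≫ groupCohomology.map g₁ ψ₁ n =
      groupCohomology.map f₂ φ₂ n ≫ groupCohomology.map g₂ ψ₂ n := by
  rw [← groupCohomology.map_comp, ← groupCohomology.map_comp]
  exact groupCohomology.map_congr hfg (LinearMap.ext h) n

lemma map_tri_apply {G H K : Type} [Group G] [Group H] [Group K]
    {A : Rep.{0} k K} {B : Rep.{0} k H} {C : Rep.{0} k G} (f : H →* K) (g : G →* H)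
    (e : G →* K) (φ : Rep.res f A ⟶ B) (ψ : Rep.res g B ⟶ C) (χ : Rep.res e A ⟶ C)
    (hfg : f.comp g = e) (h : ∀ a : A.V, ψ.hom (φ.hom a) = χ.hom a) (n : ℕ)
    (x : groupCohomology A n) :
    (groupCohomology.map g ψ n).hom ((groupCohomology.map f φ n).hom x) =
      (groupCohomology.map e χ n).hom x := by
  rw [← map_tri f g e φ ψ χ hfg h n]
  rfl

lemma map_sq_apply {G H₁ H₂ K : Type} [Group G] [Group H₁] [Group H₂] [Group K]
    {A : Rep.{0} k K} {B₁ : Rep.{0} k H₁} {B₂ : Rep.{0} k H₂} {C : Rep.{0} k G}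
    (f₁ : H₁ →* K) (g₁ : G →* H₁) (f₂ : H₂ →* K) (g₂ : G →* H₂)
    (φ₁ : Rep.res f₁ A ⟶ B₁) (ψ₁ : Rep.res g₁ B₁ ⟶ C)
    (φ₂ : Rep.res f₂ A ⟶ B₂) (ψ₂ : Rep.res g₂ B₂ ⟶ C)
    (hfg : f₁.comp g₁ = f₂.comp g₂)
    (h : ∀ a : A.V, ψ₁.hom (φ₁.hom a) = ψ₂.hom (φ₂.hom a)) (n : ℕ)
    (x : groupCohomology A n) :
    (groupCohomology.map g₁ ψ₁ n).hom ((groupCohomology.map f₁ φ₁ n).hom x) =
      (groupCohomology.map g₂ ψ₂ n).hom ((groupCohomology.map f₂ φ₂ n).hom x) := by
  have := map_sq f₁ g₁ f₂ g₂ φ₁ ψ₁ φ₂ ψ₂ hfg h n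
  exact congrArg (fun F => F.hom x) this

variable {G : Type} [Group G]

lemma map_id_add {A B : Rep.{0} k G} (φ ψ : A ⟶ B) (n : ℕ) :
    groupCohomology.map (MonoidHom.id G) (φ + ψ) n =
      groupCohomology.map (MonoidHom.id G) φ n + groupCohomology.map (MonoidHom.id G) ψ n := by
  have h : cochainsMap (MonoidHom.id G) (φ + ψ) =
      cochainsMap (MonoidHom.id G) φ + cochainsMap (MonoidHom.id G) ψ :=
    (cochainsFunctor k G).map_add
  change HomologicalComplex.homologyMap (cochainsMap (MonoidHom.id G) (φ + ψ)) n = _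
  rw [h, HomologicalComplex.homologyMap_add]
  rfl

lemma map_id_zero (A B : Rep.{0} k G) (n : ℕ) :
    groupCohomology.map (MonoidHom.id G) (0 : A ⟶ B) n = 0 :=
  (groupCohomology.functor k G n).map_zero A B

lemma map_id_nsmul {A B : Rep.{0} k G} (φ : A ⟶ B) (m n : ℕ) :
    groupCohomology.map (MonoidHom.id G) (m • φ) n =
      m • groupCohomology.map (MonoidHom.id G) φ n := by
  induction m with
  | zero => rw [zero_smul, zero_smul, map_id_zero]
  | succ m ih => rw [succ_nsmul, succ_nsmul, map_id_add, ih]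

/-- Multiplication by `m` on coefficients is multiplication by `m` on cohomology. -/
lemma map_id_nsmul_id_apply (A : Rep.{0} k G) (m n : ℕ) (x : groupCohomology A n) :
    (groupCohomology.map (MonoidHom.id G) (m • 𝟙 A) n).hom x = m • x := by
  rw [map_id_nsmul, groupCohomology.map_id]
  rfl

/-- If `m` kills `A`, it kills the cohomology of `A`. -/
lemma nsmul_eq_zero_of_kills (A : Rep.{0} k G) (m n : ℕ) (hA : ∀ a : A.V, m • a = 0)
    (x : groupCohomology A n) : m • x = 0 := by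
  rw [← map_id_nsmul_id_apply]
  have h0 : (m • 𝟙 A : A ⟶ A) = 0 := by
    apply Rep.hom_ext
    apply DFunLike.ext
    intro a
    exact hA a
  rw [h0, map_id_zero]
  rfl

end General

section Funct

variable {G G' : Type} [Group G] [Group G']

/-- Functoriality of `p • B`. -/
noncomputable def pImgMap {B : Rep.{0} k G} {B' : Rep.{0} k G'} (f : G' →* G)
    (φ : Rep.res f B ⟶ B') (p : ℕ) : Rep.res f (pImg B p) ⟶ pImg B' p :=
  Rep.ofHom ⟨
    { toFun := fun x => (⟨φ.hom (show ↥(pSub B p) from x).1, by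
          obtain ⟨c, hc⟩ := (show ↥(pSub B p) from x).2
          exact ⟨φ.hom c, by rw [← hc]; exact (map_nsmul φ.hom p c).symm⟩⟩ : ↥(pSub B' p))
      map_add' := fun x y => Subtype.ext (map_add φ.hom _ _)
      map_smul' := fun r x => Subtype.ext (map_smul φ.hom _ _) },
    fun g => by
      ext x
      exact Rep.hom_comm_apply φ g (show ↥(pSub B p) from x).1⟩

lemma pImgMap_apply_coe {B : Rep.{0} k G} {B' : Rep.{0} k G'} (f : G' →* G)
    (φ : Rep.res f B ⟶ B') (p : ℕ) (x : (pImg B p).V) :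
    (show ↥(pSub B' p) from (pImgMap f φ p).hom x).1 = φ.hom (show ↥(pSub B p) from x).1 := rfl

/-- Functoriality of `B ⧸ p • B`. -/
noncomputable def pCokMap {B : Rep.{0} k G} {B' : Rep.{0} k G'} (f : G' →* G)
    (φ : Rep.res f B ⟶ B') (p : ℕ) : Rep.res f (pCok B p) ⟶ pCok B' p :=
  Rep.ofHom ⟨(pSub B p).mapQ (pSub B' p) φ.hom.toLinearMap (by
      rintro _ ⟨c, rfl⟩
      exact ⟨φ.hom c, (map_nsmul φ.hom p c).symm⟩),
    fun g => by
      apply LinearMap.ext
      intro x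
      obtain ⟨b, rfl⟩ := Submodule.Quotient.mk_surjective (pSub B p) x
      exact congrArg (Submodule.Quotient.mk (p := pSub B' p)) (Rep.hom_comm_apply φ g b)⟩

lemma pCokMap_pProj {B : Rep.{0} k G} {B' : Rep.{0} k G'} (f : G' →* G)
    (φ : Rep.res f B ⟶ B') (p : ℕ) (b : B.V) :
    (pCokMap f φ p).hom ((pProj B p).hom b) = (pProj B' p).hom (φ.hom b) := rfl

lemma pImgMap_pMul {B : Rep.{0} k G} {B' : Rep.{0} k G'} (f : G' →* G)
    (φ : Rep.res f B ⟶ B') (p : ℕ) (b : B.V) :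
    (pImgMap f φ p).hom ((pMul B p).hom b) = (pMul B' p).hom (φ.hom b) :=
  Subtype.ext (map_nsmul φ.hom p b)

lemma pIncl_pImgMap {B : Rep.{0} k G} {B' : Rep.{0} k G'} (f : G' →* G)
    (φ : Rep.res f B ⟶ B') (p : ℕ) (x : (pImg B p).V) :
    (pIncl B' p).hom ((pImgMap f φ p).hom x) = φ.hom ((pIncl B p).hom x) := rfl

end Funct

end Fermat.Agent.S55.KL.H289
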