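import Fermat.Agent.S55.KL.Spec

/-!
# S55, layer KB, leaf KB-KUM3 (helper289), part 1: image and cokernel of `p` on a representation

For `B : Rep k G` and `p : ℕ`:
* `pSub B p = p • B` (a `G`-stable submodule), `pImg B p` the subrepresentation, `pCok B p` the
  quotient `B ⧸ p • B`;
* the short exact sequence `0 → p • B → B → B ⧸ p • B → 0` (`ses2`);
* `pMul : B ⟶ pImg B p` (multiplication by `p`), with `pMul ≫ pIncl = p • 𝟙`;
* functoriality in `(f, φ)`, `f : G' →* G`, `φ : res f B ⟶ B'`.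
-/

set_option autoImplicit false
set_option linter.style.haveILetI false

open CategoryTheory groupCohomology

namespace Fermat.Agent.S55.KL.H289

open Fermat.Agent.S55.KL

variable {k : Type} [CommRing k] {G G' G'' : Type} [Group G] [Group G'] [Group G'']

/-- The submodule `p • B`. -/
def pSub (B : Rep.{0} k G) (p : ℕ) : Submodule k B.V where
  carrier := {b | ∃ c : B.V, p • c = b}
  add_mem' := by
    rintro _ _ ⟨c, rfl⟩ ⟨d, rfl⟩
    exact ⟨c + d, smul_add _ _ _⟩
  zero_mem' := ⟨0, smul_zero _⟩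
  smul_mem' := by
    rintro r _ ⟨c, rfl⟩
    exact ⟨r • c, smul_comm _ _ _⟩

lemma mem_pSub {B : Rep.{0} k G} {p : ℕ} {b : B.V} : b ∈ pSub B p ↔ ∃ c : B.V, p • c = b :=
  Iff.rfl

lemma pSub_le_comap (B : Rep.{0} k G) (p : ℕ) (g : G) :
    pSub B p ≤ (pSub B p).comap (B.ρ g) := by
  rintro _ ⟨c, rfl⟩
  exact ⟨B.ρ g c, (map_nsmul _ _ _).symm⟩

/-- The subrepresentation `p • B`. -/
noncomputable def pImg (B : Rep.{0} k G) (p : ℕ) : Rep.{0} k G :=
  Rep.subrepresentation B (pSub B p) (pSub_le_comap B p)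

/-- The quotient representation `B ⧸ p • B`. -/
noncomputable def pCok (B : Rep.{0} k G) (p : ℕ) : Rep.{0} k G :=
  Rep.quotient B (pSub B p) (pSub_le_comap B p)

/-- The inclusion `p • B ⟶ B`. -/
noncomputable def pIncl (B : Rep.{0} k G) (p : ℕ) : pImg B p ⟶ B :=
  Rep.subtype B (pSub B p) (pSub_le_comap B p)

/-- The projection `B ⟶ B ⧸ p • B`. -/
noncomputable def pProj (B : Rep.{0} k G) (p : ℕ) : B ⟶ pCok B p :=
  Rep.mkQ B (pSub B p) (pSub_le_comap B p)

/-- Multiplication by `p`, as a linear map `B → p • B`. -/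
def pMulLin (B : Rep.{0} k G) (p : ℕ) : B.V →ₗ[k] ↥(pSub B p) where
  toFun b := ⟨p • b, b, rfl⟩
  map_add' _ _ := Subtype.ext (smul_add _ _ _)
  map_smul' _ _ := Subtype.ext (smul_comm _ _ _)

/-- Multiplication by `p`, `B ⟶ p • B`. -/
noncomputable def pMul (B : Rep.{0} k G) (p : ℕ) : B ⟶ pImg B p :=
  Rep.ofHom ⟨pMulLin B p, fun g => by
    ext b
    exact (map_nsmul (B.ρ g) p b).symm⟩

@[simp] lemma pIncl_apply (B : Rep.{0} k G) (p : ℕ) (x : (pImg B p).V) :
    (pIncl B p).hom x = (show ↥(pSub B p) from x).1 := rfl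

@[simp] lemma pMul_apply_coe (B : Rep.{0} k G) (p : ℕ) (b : B.V) :
    ((show ↥(pSub B p) from (pMul B p).hom b) : B.V) = p • b := rfl

lemma pProj_apply (B : Rep.{0} k G) (p : ℕ) (b : B.V) :
    (pProj B p).hom b = (show B.V ⧸ pSub B p from Submodule.Quotient.mk b) := rfl

lemma pProj_eq_zero_iff (B : Rep.{0} k G) (p : ℕ) (b : B.V) :
    (pProj B p).hom b = 0 ↔ ∃ c : B.V, p • c = b := by
  rw [pProj_apply]
  exact (Submodule.Quotient.mk_eq_zero (pSub B p)).trans mem_pSub

lemma pProj_surjective (B : Rep.{0} k G) (p : ℕ) : Function.Surjective (pProj B p).hom :=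
  fun x => Submodule.Quotient.mk_surjective (pSub B p) x

lemma pIncl_injective (B : Rep.{0} k G) (p : ℕ) : Function.Injective (pIncl B p).hom :=
  fun _ _ h => Subtype.ext h

lemma pMul_surjective (B : Rep.{0} k G) (p : ℕ) : Function.Surjective (pMul B p).hom := by
  rintro ⟨_, c, rfl⟩
  exact ⟨c, rfl⟩

lemma pMul_comp_pIncl (B : Rep.{0} k G) (p : ℕ) : pMul B p ≫ pIncl B p = p • 𝟙 B := by
  apply Rep.hom_ext
  apply DFunLike.ext
  intro b
  rfl

lemma pIncl_comp_pProj (B : Rep.{0} k G) (p : ℕ) : pIncl B p ≫ pProj B p = 0 := by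
  apply Rep.hom_ext
  apply DFunLike.ext
  intro b
  show (pProj B p).hom ((pIncl B p).hom b) = 0
  rw [pProj_eq_zero_iff]
  exact (show ↥(pSub B p) from b).2

/-- The short complex `p • B ⟶ B ⟶ B ⧸ p • B`. -/
noncomputable def ses2 (B : Rep.{0} k G) (p : ℕ) : ShortComplex (Rep.{0} k G) :=
  ShortComplex.mk (pIncl B p) (pProj B p) (pIncl_comp_pProj B p)

lemma ses2_shortExact (B : Rep.{0} k G) (p : ℕ) : (ses2 B p).ShortExact where
  exact := by
    rw [← ShortComplex.exact_map_iff_of_faithful _ (forget₂ (Rep k G) (ModuleCat k)),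
      ShortComplex.moduleCat_exact_iff_ker_sub_range]
    intro b hb
    have hb' : (pProj B p).hom (show B.V from b) = 0 := hb
    have hb'' := (pProj_eq_zero_iff B p (show B.V from b)).1 hb'
    exact ⟨(⟨(show B.V from b), hb''⟩ : ↥(pSub B p)), rfl⟩
  mono_f := by
    rw [Rep.mono_iff_injective]
    exact pIncl_injective B p
  epi_g := by
    rw [Rep.epi_iff_surjective]
    exact pProj_surjective B p

end Fermat.Agent.S55.KL.H289
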